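import Mathlib
import Fermat.Agent.S18.T.Spec

/-!
# Program S, route K : definitions shared by the abstract leaves

* `sskCentre t V` : the centre on `P = s18tInt A t` of a valuation subring `V ⊇ P`.
-/

set_option autoImplicit false
set_option linter.unusedSectionVars false

noncomputable section

namespace Fermat.Agent.SS

open Polynomial IntermediateField Fermat.Agent.S18

universe u

variable {A : Type*} [CommRing A]
variable {F : Type u} [Field F] [Algebra A F]

/-- the centre of a valuation subring `V ⊇ P` : the prime `P ∩ 𝔪_V`. -/
def sskCentre (t : F) (V : ValuationSubring F) : Set ↥(s18tInt A t) :=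
  {p | (p : F) ∈ V.nonunits}

end Fermat.Agent.SS
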