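import Mathlib
import Fermat.Agent.S18.T.Spec
import Fermat.Agent.SS.K.Defs

/-!
# Program S (S34), ROUTE K-DIRECT : leaf (KRULL) `ssk_krull`

`x ∈ P_(ϖ)` without pole at the places of `F / L` centred in the maximal ideal `𝔫` of
`P = s18tInt A t` lies in `P_𝔫`.

Proof: suppose not. Among the `𝔫`-saturated colon ideals
`I_c = {r | ∃ u ∉ 𝔫, u r c x ∈ P}` (`c ∈ P`) which are proper, choose a maximal one `𝔭 = I_c`
(`P` is noetherian); it is a prime ideal contained in `𝔫`, and `ϖ ∉ 𝔭` by the saturation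
theorem (T1).  Put `x' = c x`.  Either `x' 𝔭 ⊆ 𝔭 P_𝔭`, then `s x'` is integral over `P` for some
`s ∉ 𝔭` (determinant trick), so `s ∈ 𝔭`, absurd; or `x' = w / (u π)` with `π ∈ 𝔭` and
`u, w ∈ P ∖ 𝔭`, and then `x'` lies in NO valuation ring `V ⊇ P` with centre `𝔭`; such a `V` exists,
is a place of `F / L` (because `ϖ ∉ 𝔭`) centred in `𝔫`, and contains `x` by hypothesis, absurd.
-/

set_option autoImplicit false
set_option linter.unusedSectionVars false
set_option linter.unusedVariables false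

noncomputable section

namespace Fermat.Agent.SS

open Polynomial IntermediateField Fermat.Agent.S18

universe u

/-- a valuation subring with prescribed centre on a subring -/
theorem sskr_exists_valuationSubring {K : Type*} [Field K] (R : Subring K) (p : Ideal R)
    [p.IsPrime] : ∃ V : ValuationSubring K, R ≤ V.toSubring ∧
      ∀ r : R, (r : K) ∈ V.nonunits ↔ r ∈ p := by
  obtain ⟨V, hV⟩ := (LocalSubring.ofPrime R p).exists_le_valuationSubring
  obtain ⟨hle, hloc⟩ := LocalSubring.le_def.mp hV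
  have hRV : R ≤ V.toSubring := (LocalSubring.le_ofPrime R p).trans hle
  refine ⟨V, hRV, fun r => ?_⟩
  -- the image of `r` in the localisation
  have hr' : (r : K) ∈ (LocalSubring.ofPrime R p).toSubring := LocalSubring.le_ofPrime R p r.2
  have hunit : IsUnit (⟨(r : K), hr'⟩ : (LocalSubring.ofPrime R p).toSubring) ↔ r ∉ p := by
    have := IsLocalization.AtPrime.isUnit_to_map_iff (LocalSubring.ofPrime R p).toSubring p r
    rw [← Ideal.mem_primeCompl_iff]
    exact this
  constructor
  · intro hnu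
    by_contra hrp
    have h1 : IsUnit (⟨(r : K), hr'⟩ : (LocalSubring.ofPrime R p).toSubring) := hunit.mpr hrp
    have h2 := h1.map (Subring.inclusion hle)
    rw [ValuationSubring.mem_nonunits_iff_exists_mem_maximalIdeal] at hnu
    obtain ⟨hmem, hmax⟩ := hnu
    exact (IsLocalRing.mem_maximalIdeal _).mp hmax h2
  · intro hrp
    rw [ValuationSubring.mem_nonunits_iff_exists_mem_maximalIdeal]
    refine ⟨hRV r.2, ?_⟩
    rw [IsLocalRing.mem_maximalIdeal, mem_nonunits_iff]
    intro hu
    have : IsUnit (⟨(r : K), hr'⟩ : (LocalSubring.ofPrime R p).toSubring) :=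
      hloc.map_nonunit (⟨(r : K), hr'⟩ : (LocalSubring.ofPrime R p).toSubring) hu
    exact hunit.mp this hrp

variable {A : Type*} [CommRing A] [IsDomain A] [IsDiscreteValuationRing A] [CharZero A]
variable {L : Type*} [Field L] [Algebra A L] [IsFractionRing A L]
variable {F : Type u} [Field F] [Algebra A F] [Algebra L F] [IsScalarTower A L F]
variable {ϖ : A}

/-- `P = s18tInt A t` is noetherian. -/
theorem sskr_isNoetherianRing (t : F) (ht : Transcendental L t) [FiniteDimensional L⟮t⟯ F] :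
    IsNoetherianRing ↥(s18tInt A t) := by
  have htA : Transcendental A t := s18tb_transcendental ht
  let e : A[X] ≃ₐ[A] ↥(s18tChart A t) := algEquivOfTranscendental A t htA
  have : IsNoetherianRing ↥(s18tChart A t) := isNoetherianRing_of_ringEquiv _ e.toRingEquiv
  have := s18tc_int_finite (A := A) (L := L) t ht
  have : IsNoetherianRing ↥(integralClosure ↥(s18tChart A t) F) :=
    IsNoetherianRing.of_finite ↥(s18tChart A t) _
  let f : ↥(integralClosure ↥(s18tChart A t) F) ≃+* ↥(s18tInt A t) :=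
    { toFun := fun z => ⟨z.1, z.2⟩
      invFun := fun z => ⟨z.1, z.2⟩
      left_inv := fun _ => rfl
      right_inv := fun _ => rfl
      map_mul' := fun _ _ => rfl
      map_add' := fun _ _ => rfl }
  exact isNoetherianRing_of_ringEquiv _ f

/-- `P = s18tInt A t` is integrally closed in `F`. -/
theorem sskr_mem_of_isIntegral (t : F) {z : F} (hz : IsIntegral ↥(s18tInt A t) z) :
    z ∈ s18tInt A t := by
  rw [mem_s18tInt]
  have hz' : IsIntegral ↥(integralClosure ↥(s18tChart A t) F) z := hz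
  exact isIntegral_trans (A := ↥(integralClosure ↥(s18tChart A t) F)) z hz'

/-- the `𝔫`-saturated colon ideal `{r | ∃ u ∉ 𝔫, u r c x ∈ P}` -/
def sskrColon (t : F) (𝔫 : Ideal ↥(s18tInt A t)) (h𝔫 : 𝔫.IsPrime) (x : F)
    (c : ↥(s18tInt A t)) : Ideal ↥(s18tInt A t) where
  carrier := {r | ∃ u : ↥(s18tInt A t), u ∉ 𝔫 ∧ (u : F) * r * c * x ∈ s18tInt A t}
  add_mem' := by
    rintro a b ⟨u, hu, hua⟩ ⟨v, hv, hvb⟩
    refine ⟨u * v, fun h => (h𝔫.mem_or_mem h).elim hu hv, ?_⟩
    have : ((u * v : ↥(s18tInt A t)) : F) * ((a + b : ↥(s18tInt A t)) : F) * c * x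
        = v * ((u : F) * a * c * x) + u * ((v : F) * b * c * x) := by
      push_cast; ring
    rw [this]
    exact Subring.add_mem _ (Subring.mul_mem _ v.2 hua) (Subring.mul_mem _ u.2 hvb)
  zero_mem' := ⟨1, (Ideal.ne_top_iff_one _).mp h𝔫.ne_top, by simp⟩
  smul_mem' := by
    rintro a r ⟨u, hu, hur⟩
    refine ⟨u, hu, ?_⟩
    have : (u : F) * ((a • r : ↥(s18tInt A t)) : F) * c * x = a * ((u : F) * r * c * x) := by
      rw [smul_eq_mul]; push_cast; ring
    rw [this]
    exact Subring.mul_mem _ a.2 hur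

theorem sskr_mem_colon (t : F) (𝔫 : Ideal ↥(s18tInt A t)) (h𝔫 : 𝔫.IsPrime) (x : F)
    (c r : ↥(s18tInt A t)) : r ∈ sskrColon t 𝔫 h𝔫 x c ↔
      ∃ u : ↥(s18tInt A t), u ∉ 𝔫 ∧ (u : F) * r * c * x ∈ s18tInt A t := Iff.rfl

/-- (KRULL) `x ∈ P_(ϖ)` without pole at the places centred in `𝔫` lies in `P_𝔫`. -/
theorem ssk_krull (hϖ : Irreducible ϖ) (t : F) (ht : Transcendental L t)
    [FiniteDimensional L⟮t⟯ F]
    (𝔫 : Ideal ↥(s18tInt A t)) (h𝔫 : 𝔫.IsMaximal)
    (x : F) (hx : x ∈ s18tIntLoc A t (C ϖ) (s18t_prime_C hϖ))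
    (hpole : ∀ V : ValuationSubring F, S18IsPlace L V → s18tInt A t ≤ V.toSubring →
      sskCentre t V ⊆ (𝔫 : Set ↥(s18tInt A t)) → x ∈ V) :
    ∃ s : ↥(s18tInt A t), s ∉ 𝔫 ∧ (s : F) * x ∈ s18tInt A t := by
  classical
  by_contra hcon
  push Not at hcon
  have hprime : 𝔫.IsPrime := h𝔫.isPrime
  have hnoeth : IsNoetherianRing ↥(s18tInt A t) := sskr_isNoetherianRing (A := A) (L := L) t ht
  have htA : Transcendental A t := s18tb_transcendental ht
  -- the proper colon ideals
  let S : Set (Ideal ↥(s18tInt A t)) :=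
    {I | ∃ c, I = sskrColon t 𝔫 hprime x c ∧ (1 : ↥(s18tInt A t)) ∉ I}
  have hS : S.Nonempty := by
    refine ⟨sskrColon t 𝔫 hprime x 1, 1, rfl, ?_⟩
    rintro ⟨u, hu, hux⟩
    apply hcon u hu
    simpa using hux
  obtain ⟨p, ⟨c, hpc, hp1⟩, hmax⟩ := set_has_maximal_iff_noetherian.mpr hnoeth S hS
  -- membership in `p`
  have hmem : ∀ r : ↥(s18tInt A t), r ∈ p ↔
      ∃ u : ↥(s18tInt A t), u ∉ 𝔫 ∧ (u : F) * r * c * x ∈ s18tInt A t := by
    intro r; rw [hpc]; exact Iff.rfl
  -- `p ≤ 𝔫`
  have hp𝔫 : p ≤ 𝔫 := by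
    intro r hr
    by_contra hr𝔫
    obtain ⟨u, hu, hur⟩ := (hmem r).mp hr
    apply hp1
    rw [hmem]
    refine ⟨u * r, fun h => (hprime.mem_or_mem h).elim hu hr𝔫, ?_⟩
    simpa using hur
  -- `p` is prime
  have hpprime : Ideal.IsPrime (p : Ideal ↥(s18tInt A t)) := by
    refine ⟨fun h => hp1 (h ▸ Submodule.mem_top), ?_⟩
    intro a b hab
    by_contra hnot
    push Not at hnot
    obtain ⟨ha, hb⟩ := hnot
    -- the colon ideal of `c * a`
    have h1 : (1 : ↥(s18tInt A t)) ∉ sskrColon t 𝔫 hprime x (c * a) := by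
      rintro ⟨u, hu, hux⟩
      apply ha
      rw [hmem]
      refine ⟨u, hu, ?_⟩
      have : (u : F) * a * c * x
          = (u : F) * ((1 : ↥(s18tInt A t)) : F) * ((c * a : ↥(s18tInt A t)) : F) * x := by
        push_cast; ring
      rw [this]; exact hux
    have hle : p ≤ sskrColon t 𝔫 hprime x (c * a) := by
      intro r hr
      obtain ⟨u, hu, hur⟩ := (hmem r).mp hr
      refine ⟨u, hu, ?_⟩
      have : (u : F) * r * ((c * a : ↥(s18tInt A t)) : F) * x = a * ((u : F) * r * c * x) := by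
        push_cast; ring
      rw [this]
      exact Subring.mul_mem _ a.2 hur
    have hbmem : b ∈ sskrColon t 𝔫 hprime x (c * a) := by
      obtain ⟨u, hu, hur⟩ := (hmem (a * b)).mp hab
      refine ⟨u, hu, ?_⟩
      have : (u : F) * b * ((c * a : ↥(s18tInt A t)) : F) * x
          = (u : F) * ((a * b : ↥(s18tInt A t)) : F) * c * x := by
        push_cast; ring
      rw [this]; exact hur
    have hlt : ¬ p < sskrColon t 𝔫 hprime x (c * a) := hmax _ ⟨c * a, rfl, h1⟩
    have heq : p = sskrColon t 𝔫 hprime x (c * a) := by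
      by_contra hne
      exact hlt (lt_of_le_of_ne hle hne)
    exact hb (heq ▸ hbmem)
  -- `ϖ ∉ p`
  have hϖp : (⟨algebraMap A F ϖ, s18tc_algebraMap_mem_int t ϖ⟩ : ↥(s18tInt A t)) ∉ p := by
    intro h
    obtain ⟨u, hu, hur⟩ := (hmem _).mp h
    apply hp1
    rw [hmem]
    refine ⟨u, hu, ?_⟩
    have hy : (u : F) * c * x ∈ s18tIntLoc A t (C ϖ) (s18t_prime_C hϖ) :=
      Subring.mul_mem _ (Subring.mul_mem _ (s18tInt_le_intLoc hϖ t u.2)
        (s18tInt_le_intLoc hϖ t c.2)) hx
    have h2 : algebraMap A F ϖ * ((u : F) * c * x) ∈ s18tInt A t := by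
      have : algebraMap A F ϖ * ((u : F) * c * x) = (u : F) * algebraMap A F ϖ * c * x := by ring
      rw [this]; exact hur
    have := s18t_saturated (L := L) hϖ t ht _ hy h2
    simpa using this
  -- a nonzero element of `p`
  obtain ⟨r₀, hr₀p, hr₀0⟩ : ∃ r₀ : ↥(s18tInt A t), r₀ ∈ p ∧ (r₀ : F) ≠ 0 := by
    obtain ⟨b, hb, hbx⟩ := (s18t_intLoc_iff hϖ t x).mp hx
    refine ⟨⟨aeval t b, s18tc_chart_le_int t (s18tb_aeval_mem_chart t b)⟩, ?_, ?_⟩
    · rw [hmem]
      refine ⟨1, (Ideal.ne_top_iff_one _).mp hprime.ne_top, ?_⟩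
      have : (((1 : ↥(s18tInt A t)) : F)) * aeval t b * c * x = c * (aeval t b * x) := by
        push_cast; ring
      rw [this]
      exact Subring.mul_mem _ c.2 hbx
    · intro h0
      have hb0 : b = 0 := (transcendental_iff.mp htA) b h0
      exact hb (hb0 ▸ dvd_zero _)
  by_cases hcase : ∀ r ∈ p, ∃ s : ↥(s18tInt A t), s ∉ p ∧
      ∃ q ∈ p, (q : F) = (s : F) * r * ((c : F) * x)
  · -- determinant trick
    obtain ⟨G, hG⟩ := (isNoetherianRing_iff_ideal_fg _).mp hnoeth p
    choose! s hs using hcase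
    have hGp : ∀ g ∈ G, g ∈ p := fun g hg => hG ▸ Ideal.subset_span hg
    set sG : ↥(s18tInt A t) := ∏ g ∈ G, s g with hsG
    have hsGp : sG ∉ p := by
      rw [hsG, hpprime.prod_mem_iff]
      rintro ⟨g, hg, hsg⟩
      exact (hs g (hGp g hg)).1 hsg
    set z : F := (sG : F) * ((c : F) * x) with hz
    have hzp : ∀ r ∈ p, ∃ q ∈ p, (q : F) = z * (r : F) := by
      intro r hr
      rw [← hG] at hr
      induction hr using Submodule.span_induction with
      | mem g hg =>
        obtain ⟨-, q, hq, hqe⟩ := hs g (hGp g hg)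
        refine ⟨(∏ j ∈ G.erase g, s j) * q, Ideal.mul_mem_left _ _ hq, ?_⟩
        have hprod : sG = s g * ∏ j ∈ G.erase g, s j := (Finset.mul_prod_erase G s hg).symm
        rw [hz, hprod]
        push_cast
        rw [hqe]
        ring
      | zero => exact ⟨0, Ideal.zero_mem _, by simp⟩
      | add a b _ _ ha hb =>
        obtain ⟨qa, hqa, hqae⟩ := ha
        obtain ⟨qb, hqb, hqbe⟩ := hb
        refine ⟨qa + qb, Ideal.add_mem _ hqa hqb, ?_⟩
        push_cast
        rw [hqae, hqbe]; ring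
      | smul a b _ hb =>
        obtain ⟨qb, hqb, hqbe⟩ := hb
        refine ⟨a * qb, Ideal.mul_mem_left _ _ hqb, ?_⟩
        rw [smul_eq_mul]
        push_cast
        rw [hqbe]; ring
    -- the submodule `p ⊆ F`
    let N : Submodule ↥(s18tInt A t) F := Submodule.map (Algebra.linearMap ↥(s18tInt A t) F) p
    have hN0 : N ≠ ⊥ := by
      intro h
      have : (r₀ : F) ∈ N := ⟨r₀, hr₀p, rfl⟩
      rw [h, Submodule.mem_bot] at this
      exact hr₀0 this
    have hNfg : N.FG := Submodule.FG.map _ ⟨G, hG⟩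
    have hzN : ∀ n ∈ N, z • n ∈ N := by
      rintro _ ⟨r, hr, rfl⟩
      obtain ⟨q, hq, hqe⟩ := hzp r hr
      refine ⟨q, hq, ?_⟩
      rw [smul_eq_mul]
      exact hqe
    have hzint : IsIntegral ↥(s18tInt A t) z :=
      isIntegral_of_smul_mem_submodule N hN0 hNfg z hzN
    have hzP : z ∈ s18tInt A t := sskr_mem_of_isIntegral t hzint
    apply hsGp
    rw [hmem]
    refine ⟨1, (Ideal.ne_top_iff_one _).mp hprime.ne_top, ?_⟩
    have : (((1 : ↥(s18tInt A t)) : F)) * sG * c * x = z := by
      rw [hz]; push_cast; ring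
    rw [this]; exact hzP
  · -- the valuation ring
    push Not at hcase
    obtain ⟨π, hπp, hπ⟩ := hcase
    obtain ⟨u₀, hu₀, hw₀⟩ := (hmem π).mp hπp
    have hu₀p : u₀ ∉ p := fun h => hu₀ (hp𝔫 h)
    have hw₀p : (⟨_, hw₀⟩ : ↥(s18tInt A t)) ∉ p := by
      intro h
      exact hπ u₀ hu₀p _ h (by ring)
    have := hpprime
    obtain ⟨V, hPV, hcentre⟩ := sskr_exists_valuationSubring (s18tInt A t) p
    have hπV : (π : F) ∈ V.nonunits := (hcentre π).mpr hπp
    have hπ0 : (π : F) ≠ 0 := by
      intro h0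
      apply hw₀p
      have : (⟨_, hw₀⟩ : ↥(s18tInt A t)) = 0 := by
        apply Subtype.ext
        simp [h0]
      rw [this]; exact Ideal.zero_mem _
    have hplace : S18IsPlace L V := by
      refine ⟨?_, ?_⟩
      · intro htop
        have h1 : V.valuation (π : F) < 1 := V.mem_nonunits_iff.mp hπV
        have h2 : (π : F)⁻¹ ∈ V := by rw [htop]; trivial
        have h3 : V.valuation (π : F)⁻¹ ≤ 1 := (V.valuation_le_one_iff _).mpr h2
        rw [map_inv₀] at h3
        have h4 : V.valuation (π : F) ≠ 0 := (Valuation.ne_zero_iff _).mpr hπ0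
        have h5 : 1 ≤ V.valuation (π : F) := by
          rwa [inv_le_one₀ (zero_lt_iff.mpr h4)] at h3
        exact absurd h1 (not_lt.mpr h5)
      · intro l
        obtain ⟨a, b, hb, rfl⟩ := IsFractionRing.div_surjective (A := A) l
        have hb0 : b ≠ 0 := nonZeroDivisors.ne_zero hb
        have haV : algebraMap A F a ∈ V := hPV (s18tc_algebraMap_mem_int t a)
        have hbV : algebraMap A F b ∈ V := hPV (s18tc_algebraMap_mem_int t b)
        have hbnu : algebraMap A F b ∉ V.nonunits := by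
          intro hnu
          have hbp : (⟨algebraMap A F b, s18tc_algebraMap_mem_int t b⟩ : ↥(s18tInt A t)) ∈ p :=
            (hcentre _).mp hnu
          obtain ⟨n, v, hbv⟩ := IsDiscreteValuationRing.eq_unit_mul_pow_irreducible hb0 hϖ
          have hfac : (⟨algebraMap A F b, s18tc_algebraMap_mem_int t b⟩ : ↥(s18tInt A t))
              = ⟨algebraMap A F (v : A), s18tc_algebraMap_mem_int t _⟩ *
                (⟨algebraMap A F ϖ, s18tc_algebraMap_mem_int t ϖ⟩ : ↥(s18tInt A t)) ^ n := by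
            apply Subtype.ext
            push_cast
            rw [hbv, map_mul, map_pow]
          rw [hfac] at hbp
          rcases hpprime.mem_or_mem hbp with h | h
          · apply hp1
            have hinv : (⟨algebraMap A F ((v⁻¹ : Aˣ) : A), s18tc_algebraMap_mem_int t _⟩ :
                ↥(s18tInt A t)) * ⟨algebraMap A F (v : A), s18tc_algebraMap_mem_int t _⟩ = 1 := by
              apply Subtype.ext
              push_cast
              rw [← map_mul, Units.inv_mul, map_one]
            rw [← hinv]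
            exact Ideal.mul_mem_left _ _ h
          · exact hϖp (hpprime.mem_of_pow_mem n h)
        have hvb : V.valuation (algebraMap A F b) = 1 := by
          have h1 : V.valuation (algebraMap A F b) ≤ 1 := (V.valuation_le_one_iff _).mpr hbV
          have h2 : ¬ V.valuation (algebraMap A F b) < 1 := fun h =>
            hbnu (V.mem_nonunits_iff.mpr h)
          exact le_antisymm h1 (not_lt.mp h2)
        have hval : V.valuation (algebraMap L F (algebraMap A L a / algebraMap A L b)) ≤ 1 := by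
          rw [map_div₀, ← IsScalarTower.algebraMap_apply A L F,
            ← IsScalarTower.algebraMap_apply A L F, map_div₀, hvb, div_one]
          exact (V.valuation_le_one_iff _).mpr haV
        exact (V.valuation_le_one_iff _).mp hval
    have hcen : sskCentre t V ⊆ (𝔫 : Set ↥(s18tInt A t)) := by
      intro r hr
      exact hp𝔫 ((hcentre r).mp hr)
    have hxV : x ∈ V := hpole V hplace hPV hcen
    apply hw₀p
    rw [← hcentre, V.mem_nonunits_iff]
    have h1 : V.valuation (π : F) < 1 := V.mem_nonunits_iff.mp hπV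
    have h2 : V.valuation ((u₀ : F) * c * x) ≤ 1 :=
      (V.valuation_le_one_iff _).mpr
        (V.mul_mem _ _ (V.mul_mem _ _ (hPV u₀.2) (hPV c.2)) hxV)
    have h3 : (u₀ : F) * π * c * x = (π : F) * ((u₀ : F) * c * x) := by ring
    change V.valuation ((u₀ : F) * π * c * x) < 1
    rw [h3, map_mul]
    exact lt_of_le_of_lt (mul_le_of_le_one_right' h2) h1
end Fermat.Agent.SS
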