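import Mathlib
import Fermat.Agent.S18.T.Spec

/-!
# Program S, route K, leaf (T5') : globalisation over the maximal ideals of the chart ring

`ssk_global_of_local` : an element `e ∈ P_(ϖ)` which, at every maximal ideal `𝔫 ∋ ϖ` of
`P = s18tInt A t`, is congruent modulo `ϖ P_(ϖ)` to an element of `P_𝔫`, is congruent modulo
`ϖ P_(ϖ)` to an element of `P`.
-/

set_option autoImplicit false
set_option linter.unusedSectionVars false

noncomputable section

namespace Fermat.Agent.SS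

open Polynomial IntermediateField Fermat.Agent.S18

universe u

variable {A : Type*} [CommRing A] [IsDomain A] [IsDiscreteValuationRing A] [CharZero A]
variable {L : Type*} [Field L] [Algebra A L] [IsFractionRing A L]
variable {F : Type u} [Field F] [Algebra A F] [Algebra L F] [IsScalarTower A L F]
variable {ϖ : A}

/-- `0 ∈ ϖ P_(ϖ)`. -/
theorem ssk_dvdGauss_zero (hϖ : Irreducible ϖ) (t : F) : S18DvdGauss hϖ t (0 : F) :=
  ⟨0, Subring.zero_mem _, by rw [mul_zero]⟩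

/-- `ϖ x ∈ ϖ P_(ϖ)` for `x ∈ P_(ϖ)`. -/
theorem ssk_dvdGauss_smul (hϖ : Irreducible ϖ) (t : F) {x : F}
    (hx : x ∈ s18tIntLoc A t (C ϖ) (s18t_prime_C hϖ)) :
    S18DvdGauss hϖ t (algebraMap A F ϖ * x) :=
  ⟨x, hx, rfl⟩

theorem ssk_dvdGauss_sub (hϖ : Irreducible ϖ) {t x y : F}
    (hx : S18DvdGauss hϖ t x) (hy : S18DvdGauss hϖ t y) : S18DvdGauss hϖ t (x - y) := by
  have := hx.add hϖ (hy.neg hϖ)
  rwa [← sub_eq_add_neg] at this

/-- the ideal of denominators of `e` modulo `ϖ P_(ϖ)` -/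
def sskDenom (hϖ : Irreducible ϖ) (t : F) (e : F) : Ideal ↥(s18tInt A t) where
  carrier := {s | ∃ p ∈ s18tInt A t, S18DvdGauss hϖ t ((s : F) * e - p)}
  add_mem' := by
    rintro a b ⟨p, hp, h1⟩ ⟨p', hp', h2⟩
    refine ⟨p + p', Subring.add_mem _ hp hp', ?_⟩
    have := h1.add hϖ h2
    convert this using 1
    push_cast
    ring
  zero_mem' := ⟨0, Subring.zero_mem _, by
    simpa using ssk_dvdGauss_zero hϖ t⟩
  smul_mem' := by
    rintro c s ⟨p, hp, h1⟩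
    refine ⟨(c : F) * p, Subring.mul_mem _ c.2 hp, ?_⟩
    have := h1.mul_mem hϖ (s18tInt_le_intLoc hϖ t c.2)
    convert this using 1
    simp only [smul_eq_mul, Subring.coe_mul]
    ring

/-- (T5') globalisation over the maximal ideals of `P`. -/
theorem ssk_global_of_local (hϖ : Irreducible ϖ) (t : F)
    (e : F) (he : e ∈ s18tIntLoc A t (C ϖ) (s18t_prime_C hϖ))
    (hloc : ∀ 𝔫 : Ideal ↥(s18tInt A t), 𝔫.IsMaximal →
      (⟨algebraMap A F ϖ, s18tc_algebraMap_mem_int t ϖ⟩ : ↥(s18tInt A t)) ∈ 𝔫 →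
      ∃ s : ↥(s18tInt A t), s ∉ 𝔫 ∧ ∃ p ∈ s18tInt A t, S18DvdGauss hϖ t ((s : F) * e - p)) :
    ∃ p ∈ s18tInt A t, S18DvdGauss hϖ t (e - p) := by
  have hϖI : (⟨algebraMap A F ϖ, s18tc_algebraMap_mem_int t ϖ⟩ : ↥(s18tInt A t)) ∈
      sskDenom hϖ t e :=
    ⟨0, Subring.zero_mem _, by
      simpa using ssk_dvdGauss_smul hϖ t he⟩
  have htop : sskDenom hϖ t e = ⊤ := by
    by_contra hne
    obtain ⟨𝔫, h𝔫, hle⟩ := Ideal.exists_le_maximal _ hne
    obtain ⟨s, hs, p, hp, h⟩ := hloc 𝔫 h𝔫 (hle hϖI)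
    exact hs (hle ⟨p, hp, h⟩)
  have h1 : (1 : ↥(s18tInt A t)) ∈ sskDenom hϖ t e := by
    rw [htop]; exact Submodule.mem_top
  obtain ⟨p, hp, h⟩ := h1
  exact ⟨p, hp, by simpa using h⟩

end Fermat.Agent.SS
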