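import Mathlib
import Fermat.Agent.S18.T.Spec
import Fermat.Agent.S18.Core.Kummer
import Fermat.Agent.SS.K.Global

/-!
# Program S, route K, leaf (KUM) : the Kummer criterion

Setting of S18 package T (`A` a DVR of characteristic `0`, uniformiser `ϖ`, `L = Frac A`,
`F / L(t)` finite).  `g ∈ Fˣ`, `g ≡ 1 mod ϖ P_(ϖ)`, `y^n = g` in `F' = F(y)`, `L` algebraically
closed in `F'`, `μ_n ⊂ A`, `n ∈ Aˣ`.  If at every maximal ideal `𝔫 ∋ ϖ` of `P = s18tInt A t` and of
`Q = s18tInt A t⁻¹` there is `r` with `r, r⁻¹ ≡ 1 mod ϖ P_(ϖ)` and `g / r^n ∈ 1 + ϖ P_𝔫`, then `g`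
is an `n`-th power in `F`.
-/

set_option autoImplicit false
set_option linter.unusedSectionVars false
set_option linter.unusedVariables false
set_option linter.style.haveILetI false

noncomputable section

namespace Fermat.Agent.SS

open Polynomial IntermediateField Fermat.Agent.S18

universe u

variable {A : Type*} [CommRing A] [IsDomain A] [IsDiscreteValuationRing A] [CharZero A]
variable {L : Type*} [Field L] [Algebra A L] [IsFractionRing A L]
variable {F : Type u} [Field F] [Algebra A F] [Algebra L F] [IsScalarTower A L F]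
variable {ϖ : A}

/-- `x ∈ 1 + ϖ P_𝔫` : there is `s ∈ P ∖ 𝔫` with `s (x - 1) ∈ ϖ P`. -/
def SskOneAt (ϖ : A) (t : F) (𝔫 : Ideal ↥(s18tInt A t)) (x : F) : Prop :=
  ∃ s : ↥(s18tInt A t), s ∉ 𝔫 ∧ ∃ p ∈ s18tInt A t, (s : F) * (x - 1) = algebraMap A F ϖ * p

/-- the local datum of (KUM) at one maximal ideal of the chart ring `P = s18tInt A t` -/
def SskKumAt (hϖ : Irreducible ϖ) (t : F) (n : ℕ) (g : F) (𝔫 : Ideal ↥(s18tInt A t)) : Prop :=
  ∃ r : F, r ≠ 0 ∧ S18DvdGauss hϖ t (r - 1) ∧ S18DvdGauss hϖ t (r⁻¹ - 1) ∧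
    SskOneAt ϖ t 𝔫 (g / r ^ n)

/-! ### the uniformiser is not a unit of `P_(ϖ)` -/

theorem ssk_unif_inv_not_mem (hϖ : Irreducible ϖ) (t : F) (ht : Transcendental L t) :
    (algebraMap A F ϖ)⁻¹ ∉ s18tIntLoc A t (C ϖ) (s18t_prime_C hϖ) := by
  intro hmem
  have hK : (algebraMap A F ϖ)⁻¹ ∈ L⟮t⟯ := by
    refine inv_mem ?_
    rw [IsScalarTower.algebraMap_apply A L F]
    exact IntermediateField.algebraMap_mem _ _
  obtain ⟨a, b, hb, hab⟩ := s18tlg_mem_loc_of_mem_intLoc ht (C ϖ) (s18t_prime_C hϖ) hmem hK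
  have hinj : Function.Injective (algebraMap A F) := by
    rw [IsScalarTower.algebraMap_eq A L F]
    exact (algebraMap L F).injective.comp (IsFractionRing.injective A L)
  have hϖF : algebraMap A F ϖ ≠ 0 := fun h => hϖ.ne_zero (hinj (by rw [h, map_zero]))
  have h1 : aeval t b = aeval t (C ϖ * a) := by
    rw [map_mul, aeval_C, ← hab, ← mul_assoc, mul_inv_cancel₀ hϖF, one_mul]
  exact hb ⟨a, s18tu_aeval_injective (L := L) t ht h1⟩

/-! ### ring identities -/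

section Identities

variable {R : Type*} [CommRing R]

/-- `(u s)² - u s = u² h (zⁿ - 1)` for `s = ∑_{i<n} z^i`, `h = ∑_{k<n} ∑_{j<k} z^j`, `n u = 1`. -/
theorem ssk_idem_identity (n : ℕ) (u : R) (hu : (n : R) * u = 1) (z : R) :
    (u * ∑ i ∈ Finset.range n, z ^ i) ^ 2 - u * ∑ i ∈ Finset.range n, z ^ i =
      u ^ 2 * (∑ k ∈ Finset.range n, ∑ j ∈ Finset.range k, z ^ j) * (z ^ n - 1) := by
  set s : R := ∑ i ∈ Finset.range n, z ^ i with hs
  set h : R := ∑ k ∈ Finset.range n, ∑ j ∈ Finset.range k, z ^ j with hh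
  have H1 : s * (z - 1) = z ^ n - 1 := by rw [hs, geom_sum_mul]
  have H2 : s - (n : R) = h * (z - 1) := by
    rw [hh, Finset.sum_mul]
    have : ∀ k ∈ Finset.range n, (∑ j ∈ Finset.range k, z ^ j) * (z - 1) = z ^ k - 1 :=
      fun k _ => geom_sum_mul z k
    rw [Finset.sum_congr rfl this, Finset.sum_sub_distrib, Finset.sum_const, Finset.card_range,
      nsmul_eq_mul, mul_one]
  linear_combination (u * s) * hu + (u ^ 2 * s) * H2 + (u ^ 2 * h) * H1

/-- `n (z - 1) = (zⁿ - 1) - (z - 1)(s - n)`. -/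
theorem ssk_sub_one_identity (n : ℕ) (z : R) :
    (n : R) * (z - 1) = (z ^ n - 1) - (z - 1) * ((∑ i ∈ Finset.range n, z ^ i) - (n : R)) := by
  have H1 : (∑ i ∈ Finset.range n, z ^ i) * (z - 1) = z ^ n - 1 := geom_sum_mul z n
  linear_combination H1

end Identities

/-- the idempotents attached to the `n` roots `ζ^j y` sum to `1`. -/
theorem ssk_sum_idem {K : Type*} [Field K] (n : ℕ) (hn : n ≠ 0) (u ζ : K) (hu : (n : K) * u = 1)
    (hζ : IsPrimitiveRoot ζ n) (y : K) :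
    ∑ j ∈ Finset.range n, u * ∑ i ∈ Finset.range n, (ζ ^ j * y) ^ i = 1 := by
  rw [← Finset.mul_sum, Finset.sum_comm]
  have hterm : ∀ i ∈ Finset.range n,
      ∑ j ∈ Finset.range n, (ζ ^ j * y) ^ i = if i = 0 then (n : K) else 0 := by
    intro i hi
    have hi' := Finset.mem_range.mp hi
    split_ifs with h0
    · subst h0
      simp
    · have h1 : ∀ j, (ζ ^ j * y) ^ i = y ^ i * (ζ ^ i) ^ j := by
        intro j
        rw [mul_pow, ← pow_mul, ← pow_mul, mul_comm j i, mul_comm]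
      simp_rw [h1, ← Finset.mul_sum]
      have hne : ζ ^ i ≠ 1 := hζ.pow_ne_one_of_pos_of_lt h0 hi'
      have hg : (∑ j ∈ Finset.range n, (ζ ^ i) ^ j) * (ζ ^ i - 1) = 0 := by
        rw [geom_sum_mul, ← pow_mul, mul_comm, pow_mul, hζ.pow_eq_one, one_pow, sub_self]
      rw [(mul_eq_zero.mp hg).resolve_right (sub_ne_zero.mpr hne), mul_zero]
  rw [Finset.sum_congr rfl hterm, Finset.sum_ite_eq' (Finset.range n) 0,
    if_pos (Finset.mem_range.mpr (Nat.pos_of_ne_zero hn)), mul_comm]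
  exact hu

/-! ### ascent along `F → F'` -/

section Ascent

variable (F' : Type u) [Field F'] [Algebra F F'] [Algebra A F'] [Algebra L F']
  [IsScalarTower A F F'] [IsScalarTower L F F'] [IsScalarTower A L F']

/-- `P ⊆ P'` for the same coordinate. -/
theorem ssk_map_mem_int (t : F) (x : F) (hx : x ∈ s18tInt A t) :
    algebraMap F F' x ∈ s18tInt A (algebraMap F F' t) := by
  let ψ : ↥(s18tChart A t) →+* ↥(s18tChart A (algebraMap F F' t)) :=
    { toFun := fun u => ⟨algebraMap F F' (u : F), by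
        have hu : (u : F) ∈ Algebra.adjoin A {t} := u.2
        show algebraMap F F' (u : F) ∈ Algebra.adjoin A {algebraMap F F' t}
        rw [Algebra.adjoin_singleton_eq_range_aeval] at hu ⊢
        obtain ⟨a, ha⟩ := hu
        refine ⟨a, ?_⟩
        have : (aeval t) a = (u : F) := ha
        show (aeval (algebraMap F F' t)) a = _
        rw [← this, aeval_algebraMap_apply]⟩
      map_one' := Subtype.ext (map_one _)
      map_mul' := fun u v => Subtype.ext (map_mul _ _ _)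
      map_zero' := Subtype.ext (map_zero _)
      map_add' := fun u v => Subtype.ext (map_add _ _ _) }
  rw [mem_s18tInt] at hx ⊢
  have h1 : ((algebraMap F F').comp (algebraMap ↥(s18tChart A t) F)).IsIntegralElem
      (algebraMap F F' x) := RingHom.IsIntegralElem.map hx (algebraMap F F')
  have h2 : ((algebraMap ↥(s18tChart A (algebraMap F F' t)) F').comp ψ).IsIntegralElem
      (algebraMap F F' x) := h1
  exact RingHom.IsIntegralElem.of_comp h2

/-- `ϖ P_(ϖ) ⊆ ϖ P'_(ϖ)`. -/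
theorem ssk_dvdGauss_map (hϖ : Irreducible ϖ) (t : F) (x : F) (hx : S18DvdGauss hϖ t x) :
    S18DvdGauss hϖ (algebraMap F F' t) (algebraMap F F' x) := by
  obtain ⟨y, hy, rfl⟩ := hx
  refine ⟨algebraMap F F' y, s18ck_map_mem_intLoc F' (s18t_prime_C hϖ) t y hy, ?_⟩
  rw [map_mul, ← IsScalarTower.algebraMap_apply A F F']

/-- finite sums stay in `ϖ P_(ϖ)`. -/
theorem ssk_dvdGauss_sum (hϖ : Irreducible ϖ) (t : F) {ι : Type*} (S : Finset ι) (f : ι → F)
    (hf : ∀ i ∈ S, S18DvdGauss hϖ t (f i)) : S18DvdGauss hϖ t (∑ i ∈ S, f i) := by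
  classical
  induction S using Finset.induction_on with
  | empty => simpa using ssk_dvdGauss_zero hϖ t
  | insert a S ha ih =>
    rw [Finset.sum_insert ha]
    exact (hf a (Finset.mem_insert_self a S)).add hϖ
      (ih fun i hi => hf i (Finset.mem_insert_of_mem hi))

/-- `x ≡ 1 ⟹ x^i ≡ 1` modulo `ϖ P_(ϖ)`. -/
theorem ssk_dvdGauss_pow_sub_one (hϖ : Irreducible ϖ) (t : F) (x : F)
    (hx : S18DvdGauss hϖ t (x - 1)) (i : ℕ) : S18DvdGauss hϖ t (x ^ i - 1) := by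
  have hxI : x ∈ s18tIntLoc A t (C ϖ) (s18t_prime_C hϖ) := by
    obtain ⟨m, hm, hxm⟩ := hx
    have : x = 1 + algebraMap A F ϖ * m := by rw [← hxm]; ring
    rw [this]
    exact Subring.add_mem _ (Subring.one_mem _)
      (Subring.mul_mem _ (s18ck_const_mem (s18t_prime_C hϖ) t ϖ) hm)
  have h := hx.mul_mem hϖ (Subring.sum_mem _ (fun j (_ : j ∈ Finset.range i) =>
    Subring.pow_mem _ hxI j))
  have h2 : (x - 1) * ∑ j ∈ Finset.range i, x ^ j = x ^ i - 1 := by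
    rw [mul_comm, geom_sum_mul]
  rwa [h2] at h

/-- membership in `P_(ϖ)` of an element `≡ 1`. -/
theorem ssk_mem_of_sub_one (hϖ : Irreducible ϖ) (t : F) (x : F)
    (hx : S18DvdGauss hϖ t (x - 1)) : x ∈ s18tIntLoc A t (C ϖ) (s18t_prime_C hϖ) := by
  obtain ⟨m, hm, hxm⟩ := hx
  have : x = 1 + algebraMap A F ϖ * m := by rw [← hxm]; ring
  rw [this]
  exact Subring.add_mem _ (Subring.one_mem _)
    (Subring.mul_mem _ (s18ck_const_mem (s18t_prime_C hϖ) t ϖ) hm)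

/-- the restriction map `P → P'`. -/
def sskRes (t : F) : ↥(s18tInt A t) →+* ↥(s18tInt A (algebraMap F F' t)) where
  toFun x := ⟨algebraMap F F' (x : F), ssk_map_mem_int F' t x x.2⟩
  map_one' := Subtype.ext (map_one _)
  map_mul' := fun u v => Subtype.ext (map_mul _ _ _)
  map_zero' := Subtype.ext (map_zero _)
  map_add' := fun u v => Subtype.ext (map_add _ _ _)

/-- (KUM-chart) the Lagrange element of ANY `n`-th root `y₁` of `g` is congruent to an element of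
`P'` modulo `ϖ P'_(ϖ)`, as soon as `g` is locally an `n`-th power up to `1 + ϖ P_𝔫`. -/
theorem ssk_chart (hϖ : Irreducible ϖ) (t : F) (n : ℕ) (hn0 : n ≠ 0) (u : A)
    (g : F) (hg1 : S18DvdGauss hϖ t (g - 1))
    (y₁ : F') (hy₁ : y₁ ^ n = algebraMap F F' g)
    (h0 : ∀ 𝔫 : Ideal ↥(s18tInt A t), 𝔫.IsMaximal →
      (⟨algebraMap A F ϖ, s18tc_algebraMap_mem_int t ϖ⟩ : ↥(s18tInt A t)) ∈ 𝔫 →
      SskKumAt hϖ t n g 𝔫) :
    ∃ p ∈ s18tInt A (algebraMap F F' t), S18DvdGauss hϖ (algebraMap F F' t)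
      (algebraMap A F' u * ∑ i ∈ Finset.range n, y₁ ^ i - p) := by
  set t' : F' := algebraMap F F' t with ht'
  have hC := s18t_prime_C hϖ
  have hnpos : 0 < n := Nat.pos_of_ne_zero hn0
  have hgI : g ∈ s18tIntLoc A t (C ϖ) hC := ssk_mem_of_sub_one hϖ t g hg1
  have hy₁I : y₁ ∈ s18tIntLoc A t' (C ϖ) hC := s18ck_gen_mem F' hC t n hnpos g hgI y₁ hy₁
  have hu'I : algebraMap A F' u ∈ s18tIntLoc A t' (C ϖ) hC := s18ck_const_mem hC t' u
  refine ssk_global_of_local hϖ t' _ (Subring.mul_mem _ hu'I (Subring.sum_mem _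
    (fun i _ => Subring.pow_mem _ hy₁I i))) ?_
  intro 𝔫' h𝔫' hϖ𝔫'
  -- the prime of `P` below `𝔫'` and a maximal ideal above it
  have hprime' : 𝔫'.IsPrime := h𝔫'.isPrime
  set 𝔮 : Ideal ↥(s18tInt A t) := Ideal.comap (sskRes F' t) 𝔫' with h𝔮
  have h𝔮ne : 𝔮 ≠ ⊤ := (Ideal.comap_ne_top _ hprime'.ne_top)
  obtain ⟨𝔫, h𝔫, hle⟩ := Ideal.exists_le_maximal 𝔮 h𝔮ne
  have hϖ𝔮 : (⟨algebraMap A F ϖ, s18tc_algebraMap_mem_int t ϖ⟩ : ↥(s18tInt A t)) ∈ 𝔮 := by
    rw [h𝔮, Ideal.mem_comap]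
    have : sskRes F' t ⟨algebraMap A F ϖ, s18tc_algebraMap_mem_int t ϖ⟩ =
        (⟨algebraMap A F' ϖ, s18tc_algebraMap_mem_int t' ϖ⟩ :
          ↥(s18tInt A (algebraMap F F' t))) :=
      Subtype.ext (IsScalarTower.algebraMap_apply A F F' ϖ).symm
    rw [this]; exact hϖ𝔫'
  obtain ⟨r, hr0, hr1, hr2, s, hs𝔫, p, hp, hsp⟩ := h0 𝔫 h𝔫 (hle hϖ𝔮)
  have hs𝔫' : sskRes F' t s ∉ 𝔫' := fun h => hs𝔫 (hle (by rw [h𝔮, Ideal.mem_comap]; exact h))
  -- notation in `F'`
  set s₀ : F' := algebraMap F F' (s : F) with hs₀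
  set r' : F' := algebraMap F F' r with hr'
  have hr'0 : r' ≠ 0 := by
    rw [hr']; exact (map_ne_zero (algebraMap F F')).mpr hr0
  have hs₀P : s₀ ∈ s18tInt A t' := ssk_map_mem_int F' t s s.2
  set z : F' := y₁ * r'⁻¹ with hz
  -- `(s₀ z)^n ∈ P'`
  have hzn : z ^ n = algebraMap F F' (g / r ^ n) := by
    rw [hz, mul_pow, hy₁, inv_pow, map_div₀, map_pow, div_eq_mul_inv]
  have hkey : (s : F) * (g / r ^ n) = (s : F) + algebraMap A F ϖ * p := by
    have : (s : F) * (g / r ^ n - 1) = algebraMap A F ϖ * p := hsp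
    linear_combination this
  have hszn : (s₀ * z) ^ n =
      algebraMap F F' ((s : F) ^ (n - 1) * ((s : F) + algebraMap A F ϖ * p)) := by
    rw [mul_pow, hzn, ← hkey, hs₀, ← map_pow, ← map_mul]
    congr 1
    rw [← mul_assoc, ← pow_succ, Nat.sub_add_cancel hnpos]
  have hszP : s₀ * z ∈ s18tInt A t' := by
    rw [mem_s18tInt]
    refine IsIntegral.of_pow hnpos ?_
    rw [hszn]
    exact ssk_map_mem_int F' t _ (Subring.mul_mem _ (Subring.pow_mem _ s.2 _)
      (Subring.add_mem _ s.2 (Subring.mul_mem _ (s18tc_algebraMap_mem_int t ϖ) hp)))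
  -- the data
  refine ⟨(sskRes F' t s) ^ (n - 1), fun h => hs𝔫' (hprime'.mem_of_pow_mem _ h),
    algebraMap A F' u * ∑ i ∈ Finset.range n, s₀ ^ (n - 1 - i) * (s₀ * z) ^ i,
    Subring.mul_mem _ (s18tc_algebraMap_mem_int t' u) (Subring.sum_mem _ (fun i _ =>
      Subring.mul_mem _ (Subring.pow_mem _ hs₀P _) (Subring.pow_mem _ hszP _))), ?_⟩
  -- the congruence
  have hr'inv : S18DvdGauss hϖ t' (r'⁻¹ - 1) := by
    have := ssk_dvdGauss_map F' hϖ t _ hr2
    rwa [map_sub, map_inv₀, map_one] at this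
  have hdiff : ∀ i ∈ Finset.range n, S18DvdGauss hϖ t' (y₁ ^ i - z ^ i) := by
    intro i _
    have h1 := ssk_dvdGauss_pow_sub_one hϖ t' r'⁻¹ hr'inv i
    have h2 := (h1.mul_mem hϖ (Subring.pow_mem _ hy₁I i)).neg hϖ
    convert h2 using 1
    rw [hz, mul_pow]; ring
  have hsum := ssk_dvdGauss_sum hϖ t' (Finset.range n) (fun i => y₁ ^ i - z ^ i) hdiff
  have hfin := hsum.mul_mem hϖ (Subring.mul_mem _ hu'I
    (Subring.pow_mem _ (s18tInt_le_intLoc hϖ t' hs₀P) (n - 1)))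
  convert hfin using 1
  have hcoe : (((sskRes F' t s) ^ (n - 1) : ↥(s18tInt A (algebraMap F F' t))) : F') =
      s₀ ^ (n - 1) := by
    rw [Subring.coe_pow]; rfl
  rw [hcoe, Finset.sum_sub_distrib]
  have hpow : ∀ i ∈ Finset.range n, s₀ ^ (n - 1 - i) * (s₀ * z) ^ i = s₀ ^ (n - 1) * z ^ i := by
    intro i hi
    have hi' : i ≤ n - 1 := Nat.le_pred_of_lt (Finset.mem_range.mp hi)
    rw [mul_pow, ← mul_assoc, ← pow_add, Nat.sub_add_cancel hi']
  rw [Finset.sum_congr rfl hpow, ← Finset.mul_sum]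
  ring

/-- (KUM-dichotomy) the Lagrange element of any `n`-th root of `g` is `≡ 0` or `≡ 1`. -/
theorem ssk_dichotomy (hϖ : Irreducible ϖ) (t : F) (ht : Transcendental L t)
    [FiniteDimensional L⟮t⟯ F] [FiniteDimensional F F']
    (hL : ∀ x : F', IsAlgebraic L x → x ∈ (algebraMap L F').range)
    (n : ℕ) (hn0 : n ≠ 0) (u : A) (hu : (n : A) * u = 1)
    (g : F) (hg1 : S18DvdGauss hϖ t (g - 1))
    (y₁ : F') (hy₁ : y₁ ^ n = algebraMap F F' g)
    (h0 : ∀ 𝔫 : Ideal ↥(s18tInt A t), 𝔫.IsMaximal →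
      (⟨algebraMap A F ϖ, s18tc_algebraMap_mem_int t ϖ⟩ : ↥(s18tInt A t)) ∈ 𝔫 →
      SskKumAt hϖ t n g 𝔫)
    (hinf : ∀ 𝔫 : Ideal ↥(s18tInt A t⁻¹), 𝔫.IsMaximal →
      (⟨algebraMap A F ϖ, s18tc_algebraMap_mem_int t⁻¹ ϖ⟩ : ↥(s18tInt A t⁻¹)) ∈ 𝔫 →
      SskKumAt hϖ t⁻¹ n g 𝔫) :
    S18DvdGauss hϖ (algebraMap F F' t) (algebraMap A F' u * ∑ i ∈ Finset.range n, y₁ ^ i) ∨
      S18DvdGauss hϖ (algebraMap F F' t)
        (1 - algebraMap A F' u * ∑ i ∈ Finset.range n, y₁ ^ i) := by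
  set t' : F' := algebraMap F F' t with ht'def
  set e : F' := algebraMap A F' u * ∑ i ∈ Finset.range n, y₁ ^ i with he
  have hC := s18t_prime_C hϖ
  have hnpos : 0 < n := Nat.pos_of_ne_zero hn0
  have ht' : Transcendental L t' := s18ck_transcendental F' t ht
  haveI : FiniteDimensional L⟮t'⟯ F' := s18ck_finiteDimensional F' t
  have hgI : g ∈ s18tIntLoc A t (C ϖ) hC := ssk_mem_of_sub_one hϖ t g hg1
  have hy₁I : y₁ ∈ s18tIntLoc A t' (C ϖ) hC := s18ck_gen_mem F' hC t n hnpos g hgI y₁ hy₁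
  have hu'I : algebraMap A F' u ∈ s18tIntLoc A t' (C ϖ) hC := s18ck_const_mem hC t' u
  have heI : e ∈ s18tIntLoc A t' (C ϖ) hC :=
    Subring.mul_mem _ hu'I (Subring.sum_mem _ (fun i _ => Subring.pow_mem _ hy₁I i))
  -- chart `t`
  obtain ⟨p, hp, hep⟩ := ssk_chart F' hϖ t n hn0 u g hg1 y₁ hy₁ h0
  -- chart `t⁻¹`
  have hg1' : S18DvdGauss hϖ t⁻¹ (g - 1) := (s18t_dvdGauss_inv (L := L) hϖ t ht _).mpr hg1
  obtain ⟨q, hq, heq⟩ := ssk_chart F' hϖ t⁻¹ n hn0 u g hg1' y₁ hy₁ hinf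
  rw [map_inv₀] at hq heq
  rw [s18t_dvdGauss_inv (L := L) hϖ t' ht'] at heq
  have hpI := s18tInt_le_intLoc hϖ t' hp
  have hpq : S18DvdGauss hϖ t' (p - q) := by
    have := (S18DvdGauss.neg hϖ hep).add hϖ heq
    convert this using 1; ring
  -- `e² - e ∈ ϖ P'_(ϖ)`
  have hu' : ((n : ℕ) : F') * algebraMap A F' u = 1 := by
    have := congrArg (algebraMap A F') hu
    rwa [map_mul, map_natCast, map_one] at this
  have hee : S18DvdGauss hϖ t' (e ^ 2 - e) := by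
    have hid := ssk_idem_identity n (algebraMap A F' u) hu' y₁
    have hyn : S18DvdGauss hϖ t' (y₁ ^ n - 1) := by
      have := ssk_dvdGauss_map F' hϖ t _ hg1
      rwa [map_sub, map_one, ← hy₁] at this
    have hmem : (algebraMap A F' u) ^ 2 *
        (∑ k ∈ Finset.range n, ∑ j ∈ Finset.range k, y₁ ^ j) ∈ s18tIntLoc A t' (C ϖ) hC :=
      Subring.mul_mem _ (Subring.pow_mem _ hu'I 2) (Subring.sum_mem _ (fun k _ =>
        Subring.sum_mem _ (fun j _ => Subring.pow_mem _ hy₁I j)))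
    have := hyn.mul_mem hϖ hmem
    rw [he, hid]
    convert this using 1; ring
  have hpp : S18DvdGauss hϖ t' (p ^ 2 - p) := by
    have h1 : S18DvdGauss hϖ t' ((e - p) * (1 - e - p)) :=
      hep.mul_mem hϖ (Subring.sub_mem _ (Subring.sub_mem _ (Subring.one_mem _) heI) hpI)
    have := hee.add hϖ h1
    convert this using 1; ring
  rcases s18t_formal hϖ t' ht' hL p q hp hq hpq hpp with h | h
  · left
    have := hep.add hϖ h
    convert this using 1; ring
  · right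
    have := (S18DvdGauss.neg hϖ hep).add hϖ h
    convert this using 1; ring

/-- (KUM) THE KUMMER CRITERION. -/
theorem ssk_kummer (hϖ : Irreducible ϖ) (t : F) (ht : Transcendental L t)
    [FiniteDimensional L⟮t⟯ F]
    (n : ℕ) (hn : IsUnit (n : A)) (ζ : A) (hζ : IsPrimitiveRoot ζ n)
    (g : F) (hg : g ≠ 0) (hg1 : S18DvdGauss hϖ t (g - 1))
    (y : F') (hy : y ^ n = algebraMap F F' g) (hgen : IntermediateField.adjoin F {y} = ⊤)
    (hL : ∀ x : F', IsAlgebraic L x → x ∈ (algebraMap L F').range)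
    (h0 : ∀ 𝔫 : Ideal ↥(s18tInt A t), 𝔫.IsMaximal →
      (⟨algebraMap A F ϖ, s18tc_algebraMap_mem_int t ϖ⟩ : ↥(s18tInt A t)) ∈ 𝔫 →
      SskKumAt hϖ t n g 𝔫)
    (hinf : ∀ 𝔫 : Ideal ↥(s18tInt A t⁻¹), 𝔫.IsMaximal →
      (⟨algebraMap A F ϖ, s18tc_algebraMap_mem_int t⁻¹ ϖ⟩ : ↥(s18tInt A t⁻¹)) ∈ 𝔫 →
      SskKumAt hϖ t⁻¹ n g 𝔫) :
    ∃ y₀ : F, y₀ ^ n = g := by
  classical
  by_contra hno
  have hC := s18t_prime_C hϖ
  -- basic facts
  have hinjF : Function.Injective (algebraMap A F) := by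
    rw [IsScalarTower.algebraMap_eq A L F]
    exact (algebraMap L F).injective.comp (IsFractionRing.injective A L)
  have hinjF' : Function.Injective (algebraMap A F') := by
    rw [IsScalarTower.algebraMap_eq A L F']
    exact (algebraMap L F').injective.comp (IsFractionRing.injective A L)
  haveI : CharZero F := charZero_of_injective_algebraMap hinjF
  have hn0 : n ≠ 0 := by
    rintro rfl
    rw [Nat.cast_zero] at hn
    exact not_isUnit_zero hn
  have hnpos : 0 < n := Nat.pos_of_ne_zero hn0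
  obtain ⟨u, hu⟩ := hn.exists_right_inv
  set t' : F' := algebraMap F F' t with ht'def
  have ht' : Transcendental L t' := s18ck_transcendental F' t ht
  set ζF : F := algebraMap A F ζ with hζFdef
  have hζF : IsPrimitiveRoot ζF n := hζ.map_of_injective hinjF
  set ζ' : F' := algebraMap A F' ζ with hζ'def
  have hζ' : IsPrimitiveRoot ζ' n := hζ.map_of_injective hinjF'
  set u' : F' := algebraMap A F' u with hu'def
  have hu' : ((n : ℕ) : F') * u' = 1 := by
    have := congrArg (algebraMap A F') hu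
    rwa [map_mul, map_natCast, map_one] at this
  obtain ⟨hgal, hfin⟩ := s18tg_isGalois F' n hn0 ζF hζF g hg y hy hgen
  -- the Lagrange elements sum to `1`
  have hsum := ssk_sum_idem n hn0 u' ζ' hu' hζ' y
  -- each of them is `≡ 0` or `≡ 1`
  have hroot : ∀ j : ℕ, (ζ' ^ j * y) ^ n = algebraMap F F' g := by
    intro j
    rw [mul_pow, ← pow_mul, mul_comm j n, pow_mul, hζ'.pow_eq_one, one_pow, one_mul, hy]
  have hdich : ∀ j : ℕ,
      S18DvdGauss hϖ t' (u' * ∑ i ∈ Finset.range n, (ζ' ^ j * y) ^ i) ∨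
      S18DvdGauss hϖ t' (1 - u' * ∑ i ∈ Finset.range n, (ζ' ^ j * y) ^ i) := fun j =>
    ssk_dichotomy F' hϖ t ht hL n hn0 u hu g hg1 (ζ' ^ j * y) (hroot j) h0 hinf
  -- some Lagrange element is `≡ 1`
  have hex : ∃ j, S18DvdGauss hϖ t' (1 - u' * ∑ i ∈ Finset.range n, (ζ' ^ j * y) ^ i) := by
    by_contra hall'
    have hall : ∀ j, ¬ S18DvdGauss hϖ t' (1 - u' * ∑ i ∈ Finset.range n, (ζ' ^ j * y) ^ i) :=
      fun j hj => hall' ⟨j, hj⟩
    have hall0 : ∀ j ∈ Finset.range n,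
        S18DvdGauss hϖ t' (u' * ∑ i ∈ Finset.range n, (ζ' ^ j * y) ^ i) := fun j _ =>
      (hdich j).resolve_right (hall j)
    have h1 := ssk_dvdGauss_sum hϖ t' (Finset.range n) _ hall0
    rw [hsum] at h1
    obtain ⟨m, hm, h1m⟩ := h1
    apply ssk_unif_inv_not_mem (L := L) hϖ t' ht'
    have hϖ0 : algebraMap A F' ϖ ≠ 0 := fun h => hϖ.ne_zero (hinjF' (by rw [h, map_zero]))
    have : (algebraMap A F' ϖ)⁻¹ = m := inv_eq_of_mul_eq_one_right h1m.symm
    rw [this]; exact hm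
  obtain ⟨j, hj⟩ := hex
  set y₁ : F' := ζ' ^ j * y with hy₁def
  have hy₁ : y₁ ^ n = algebraMap F F' g := hroot j
  -- `y₁ ≡ 1`
  have hgI : g ∈ s18tIntLoc A t (C ϖ) hC := ssk_mem_of_sub_one hϖ t g hg1
  have hy₁I : y₁ ∈ s18tIntLoc A t' (C ϖ) hC := s18ck_gen_mem F' hC t n hnpos g hgI y₁ hy₁
  have hu'I : u' ∈ s18tIntLoc A t' (C ϖ) hC := s18ck_const_mem hC t' u
  have hyn : S18DvdGauss hϖ t' (y₁ ^ n - 1) := by
    have := ssk_dvdGauss_map F' hϖ t _ hg1
    rwa [map_sub, map_one, ← hy₁] at this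
  have hy₁one : S18DvdGauss hϖ t' (y₁ - 1) := by
    have hid := ssk_sub_one_identity n y₁
    have hs : (∑ i ∈ Finset.range n, y₁ ^ i) - ((n : ℕ) : F') =
        -(((n : ℕ) : F') * (1 - u' * ∑ i ∈ Finset.range n, y₁ ^ i)) := by
      linear_combination (-(∑ i ∈ Finset.range n, y₁ ^ i)) * hu'
    have hnI : ((n : ℕ) : F') ∈ s18tIntLoc A t' (C ϖ) hC := natCast_mem _ n
    have h2 : S18DvdGauss hϖ t' ((y₁ - 1) * ((∑ i ∈ Finset.range n, y₁ ^ i) - ((n : ℕ) : F'))) := by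
      rw [hs]
      have := (hj.mul_mem hϖ (Subring.mul_mem _ hnI
        (Subring.sub_mem _ hy₁I (Subring.one_mem _)))).neg hϖ
      convert this using 1; ring
    have h3 := (ssk_dvdGauss_sub hϖ hyn h2).mul_mem hϖ hu'I
    rw [← hid] at h3
    convert h3 using 1
    linear_combination (-(y₁ - 1)) * hu'
  obtain ⟨m, hm, hym⟩ := hy₁one
  -- `y₁ ∉ F`
  have hy₁F : y₁ ∉ (⊥ : IntermediateField F F') := by
    rw [IntermediateField.mem_bot]
    rintro ⟨y₀, hy₀⟩
    apply hno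
    refine ⟨y₀, (algebraMap F F').injective ?_⟩
    rw [map_pow, hy₀, hy₁]
  rw [IsGalois.mem_bot_iff_fixed] at hy₁F
  obtain ⟨σ, hσ⟩ := not_forall.mp hy₁F
  -- the trace of `y₁` vanishes
  obtain ⟨i, -, hi⟩ := s18tg_aut_apply F' n hn0 ζF hζF g hg y₁ hy₁ σ
  have htr0 : Algebra.trace F F' y₁ = 0 := by
    have h1 : Algebra.trace F F' (σ y₁) = Algebra.trace F F' y₁ :=
      Algebra.trace_eq_of_algEquiv σ y₁
    rw [hi, ← Algebra.smul_def, map_smul, smul_eq_mul] at h1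
    have hne : ζF ^ i ≠ 1 := by
      intro h
      apply hσ
      rw [hi, h, map_one, one_mul]
    have h2 : (ζF ^ i - 1) * Algebra.trace F F' y₁ = 0 := by
      rw [sub_mul, one_mul, h1, sub_self]
    exact (mul_eq_zero.mp h2).resolve_left (sub_ne_zero.mpr hne)
  -- `-d = ϖ · Tr m`
  have htr1 : Algebra.trace F F' (y₁ - 1) = -((Module.finrank F F' : ℕ) : F) := by
    rw [map_sub, htr0, zero_sub, ← map_one (algebraMap F F'), Algebra.trace_algebraMap,
      nsmul_eq_mul, mul_one]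
  have htr2 : Algebra.trace F F' (y₁ - 1) = algebraMap A F ϖ * Algebra.trace F F' m := by
    rw [hym]; exact s18ck_trace_const_mul F' ϖ m
  have htrm : Algebra.trace F F' m ∈ s18tIntLoc A t (C ϖ) hC :=
    s18ck_trace_mem_intLoc F' hC t ht m hm
  -- `d` is a unit of `A`
  obtain ⟨k, hk⟩ := s18tg_finrank_dvd F' n hn0 ζF hζF g hg y hy hgen
  have hdunit : IsUnit ((Module.finrank F F' : ℕ) : A) := by
    have : ((n : ℕ) : A) = ((Module.finrank F F' : ℕ) : A) * ((k : ℕ) : A) := by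
      rw [← Nat.cast_mul, ← hk]
    rw [this] at hn
    exact isUnit_of_mul_isUnit_left hn
  obtain ⟨d', hd'⟩ := hdunit.exists_right_inv
  have hd'F : ((Module.finrank F F' : ℕ) : F) * algebraMap A F d' = 1 := by
    have := congrArg (algebraMap A F) hd'
    rwa [map_mul, map_natCast, map_one] at this
  -- contradiction
  apply ssk_unif_inv_not_mem (L := L) hϖ t ht
  have hϖ0 : algebraMap A F ϖ ≠ 0 := fun h => hϖ.ne_zero (hinjF (by rw [h, map_zero]))
  have hfinal : (algebraMap A F ϖ)⁻¹ = -(Algebra.trace F F' m * algebraMap A F d') := by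
    apply inv_eq_of_mul_eq_one_right
    have h3 : algebraMap A F ϖ * Algebra.trace F F' m = -((Module.finrank F F' : ℕ) : F) := by
      rw [← htr2, htr1]
    linear_combination (-(algebraMap A F d')) * h3 + hd'F
  rw [hfinal]
  exact Subring.neg_mem _ (Subring.mul_mem _ htrm (s18ck_const_mem hC t d'))

end Ascent

end Fermat.Agent.SS
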