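import Mathlib
import Fermat.Agent.S18.T.Spec
import Fermat.Agent.SS.K.Defs
import Fermat.Agent.SS.K.Global
import Fermat.Agent.SS.K.Kummer
import Fermat.Agent.SS.K.Krull

/-!
# Program S (S34), ROUTE K-DIRECT : abstract leaves (HUB, everything proved)

Setting of S18 package T : `A` a DVR of characteristic `0`, uniformiser `ϖ`, `L = Frac A`,
`F / L(t)` finite, `P = s18tInt A t`, `P_(ϖ) = s18tIntLoc A t (C ϖ)`.

* `ssk_global_of_local` (T5', `Global.lean`, helper12) : globalisation over the maximal ideals of
  `P` (instead of the closed points of the base line);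
* `ssk_kummer` (KUM, `Kummer.lean`, helper12) : `g ∈ Fˣ`, `y^n = g` in `F' = F(y)`, `L`
  algebraically closed in `F'`; if at every maximal ideal `𝔫 ∋ ϖ` of `P` (and of
  `Q = s18tInt A t⁻¹`) there is `r` with `r, r⁻¹ ≡ 1 mod ϖ P_(ϖ)` and `g / r^n ∈ 1 + ϖ P_𝔫`, then
  `g` is an `n`-th power in `F`;
* `ssk_krull` (KRULL, `Krull.lean`, helper15) : membership in `P_𝔫` is tested on the valuations
  over the Gauss valuation and on the places centred in `𝔫`.
-/
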